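import Mathlib

set_option autoImplicit false

namespace Fermat.Agent.S22.ES

open UpperHalfPlane Derivative
open scoped Manifold MatrixGroups ModularForm Real Topology

noncomputable section

/-- Iterated normalised derivative. -/
def iterD (n : ℕ) (F : ℍ → ℂ) : ℍ → ℂ := (normalizedDerivOfComplex)^[n] F

lemma iterD_zero (F : ℍ → ℂ) : iterD 0 F = F := rfl

lemma iterD_succ (n : ℕ) (F : ℍ → ℂ) : iterD (n + 1) F = iterD n (D F) := rfl

lemma iterD_succ' (n : ℕ) (F : ℍ → ℂ) : iterD (n + 1) F = D (iterD n F) :=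
  Function.iterate_succ_apply' _ _ _

lemma iterD_mdiff {F : ℍ → ℂ} (hF : MDiff F) (n : ℕ) : MDiff (iterD n F) := by
  induction n with
  | zero => exact hF
  | succ n ih => rw [iterD_succ']; exact normalizedDerivOfComplex_mdifferentiable ih

lemma iterD_add (n : ℕ) {F G : ℍ → ℂ} (hF : MDiff F) (hG : MDiff G) :
    iterD n (F + G) = iterD n F + iterD n G := by
  induction n with
  | zero => rfl
  | succ n ih =>
    rw [iterD_succ', iterD_succ', iterD_succ', ih,
      normalizedDerivOfComplex_add _ _ (iterD_mdiff hF n) (iterD_mdiff hG n)]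

lemma iterD_sub (n : ℕ) {F G : ℍ → ℂ} (hF : MDiff F) (hG : MDiff G) :
    iterD n (F - G) = iterD n F - iterD n G := by
  induction n with
  | zero => rfl
  | succ n ih =>
    rw [iterD_succ', iterD_succ', iterD_succ', ih,
      normalizedDerivOfComplex_sub _ _ (iterD_mdiff hF n) (iterD_mdiff hG n)]

lemma iterD_smul (n : ℕ) (c : ℂ) {F : ℍ → ℂ} (hF : MDiff F) :
    iterD n (c • F) = c • iterD n F := by
  induction n with
  | zero => rfl
  | succ n ih =>
    rw [iterD_succ', iterD_succ', ih, normalizedDerivOfComplex_smul _ _ (iterD_mdiff hF n)]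

lemma iterD_sum {ι : Type} (s : Finset ι) (n : ℕ) {F : ι → ℍ → ℂ} (hF : ∀ i ∈ s, MDiff (F i)) :
    iterD n (∑ i ∈ s, F i) = ∑ i ∈ s, iterD n (F i) := by
  classical
  induction s using Finset.induction_on with
  | empty =>
    simp only [Finset.sum_empty]
    induction n with
    | zero => rfl
    | succ n ih =>
      rw [iterD_succ', ih]
      ext z
      simp [normalizedDerivOfComplex]
  | insert a s ha ih =>
    rw [Finset.sum_insert ha, Finset.sum_insert ha, iterD_add n (hF a (Finset.mem_insert_self a s)),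
      ih (fun i hi => hF i (Finset.mem_insert_of_mem hi))]
    exact MDifferentiable.sum (f := F) (fun i hi => hF i (Finset.mem_insert_of_mem hi))

lemma mdiff_smul_fun (c : ℂ) {F : ℍ → ℂ} (hF : MDiff F) : MDiff (c • F) := by
  have : MDiff (fun z : ℍ => c * F z) := mdifferentiable_const.mul hF
  exact this

/-- Leibniz rule against a function `Y` with constant derivative. -/
lemma iterD_succ_mul_of_D_const {Y : ℍ → ℂ} (hY : MDiff Y) (c₀ : ℂ) (hDY : D Y = fun _ => c₀)
    (n : ℕ) {H : ℍ → ℂ} (hH : MDiff H) :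
    iterD (n + 1) (Y * H) = Y * iterD (n + 1) H + (((n : ℂ) + 1) * c₀) • iterD n H := by
  induction n with
  | zero =>
    simp only [iterD_succ', iterD_zero, CharP.cast_eq_zero, zero_add, one_mul]
    rw [normalizedDerivOfComplex_mul _ _ hY hH, hDY]
    ext z
    simp only [Pi.add_apply, Pi.mul_apply, Pi.smul_apply, smul_eq_mul]
    ring
  | succ n ih =>
    rw [iterD_succ', ih]
    have h1 : MDiff (iterD (n + 1) H) := iterD_mdiff hH _
    have h2 : MDiff (iterD n H) := iterD_mdiff hH _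
    rw [normalizedDerivOfComplex_add _ _ (hY.mul h1) (mdiff_smul_fun _ h2),
      normalizedDerivOfComplex_mul _ _ hY h1, normalizedDerivOfComplex_smul _ _ h2, hDY,
      ← iterD_succ', ← iterD_succ']
    ext z
    simp only [Pi.add_apply, Pi.mul_apply, Pi.smul_apply, smul_eq_mul]
    push_cast
    ring

lemma D_denom (g : GL (Fin 2) ℝ) :
    D (fun τ : ℍ => denom g τ) = fun _ => (2 * π * Complex.I)⁻¹ * (g 1 0 : ℂ) := by
  ext z
  simp only [normalizedDerivOfComplex]
  congr 1
  have h : HasDerivAt (fun w : ℂ => denom g w) (g 1 0 : ℂ) (z : ℂ) := by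
    simpa [denom] using ((hasDerivAt_id (z : ℂ)).const_mul (g 1 0 : ℂ)).add_const (g 1 1 : ℂ)
  have hev : ((fun τ : ℍ => denom g τ) ∘ ofComplex) =ᶠ[𝓝 (z : ℂ)] fun w : ℂ => denom g w := by
    filter_upwards [isOpen_upperHalfPlaneSet.mem_nhds z.im_pos] with w hw
    simp [Function.comp_apply, ofComplex_apply_of_im_pos hw]
  rw [hev.deriv_eq, h.deriv]

/-- lowering the weight by one multiplies by `denom / det`. -/
lemma slash_pred_weight (w : ℤ) (F : ℍ → ℂ) {g : GL (Fin 2) ℝ} (hg : 0 < g.val.det) :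
    F ∣[w - 1] g = ((g.val.det : ℂ)⁻¹) • ((fun τ : ℍ => denom g τ) * (F ∣[w] g)) := by
  have hdet : g.det.val = g.val.det := Matrix.GeneralLinearGroup.val_det_apply g
  have hdetℂ : (g.val.det : ℂ) ≠ 0 := Complex.ofReal_ne_zero.mpr hg.ne'
  ext z
  have hz := denom_ne_zero g z
  simp only [ModularForm.slash_apply, Pi.smul_apply, Pi.mul_apply, smul_eq_mul, hdet,
    abs_of_pos hg]
  rw [show w - 1 - 1 = (w - 1) - 1 by ring, zpow_sub_one₀ hdetℂ (w - 1),
    show -(w - 1) = -w + 1 by ring, zpow_add_one₀ hz]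
  field_simp

/-- **Bol's identity**. -/
theorem bol (m : ℕ) {F : ℍ → ℂ} (hF : MDiff F) {g : GL (Fin 2) ℝ} (hg : 0 < g.val.det) :
    iterD m (F ∣[(1 : ℤ) - m] g) = ((g.val.det : ℂ)⁻¹) ^ m • ((iterD m F) ∣[(1 : ℤ) + m] g) := by
  have hdetℂ : (g.val.det : ℂ) ≠ 0 := Complex.ofReal_ne_zero.mpr hg.ne'
  induction m with
  | zero => simp [iterD_zero]
  | succ m ih =>
    set Y : ℍ → ℂ := fun τ : ℍ => denom g τ with hYdef
    have hY : MDiff Y := mdifferentiable_denom g
    set H : ℍ → ℂ := F ∣[(1 : ℤ) - m] g with hHdef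
    have hH : MDiff H := hF.slash _ _
    set K : ℍ → ℂ := (iterD m F) ∣[(1 : ℤ) + m] g with hKdef
    have hK : MDiff K := (iterD_mdiff hF m).slash _ _
    have e1 : F ∣[(1 : ℤ) - (m + 1 : ℕ)] g = ((g.val.det : ℂ)⁻¹) • (Y * H) := by
      rw [show (1 : ℤ) - ((m + 1 : ℕ) : ℤ) = ((1 : ℤ) - m) - 1 by push_cast; ring]
      exact slash_pred_weight _ F hg
    rw [e1, iterD_smul _ _ (hY.mul hH),
      iterD_succ_mul_of_D_const hY _ (D_denom g) m hH, iterD_succ' m H, ih]
    have e2 : D (((g.val.det : ℂ)⁻¹) ^ m • K) = ((g.val.det : ℂ)⁻¹) ^ m • D K :=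
      normalizedDerivOfComplex_smul _ _ hK
    rw [e2, hKdef, normalizedDerivOfComplex_slash (iterD_mdiff hF m) hg, ← hKdef, ← iterD_succ']
    have e3 : (iterD (m + 1) F) ∣[(1 : ℤ) + ((m + 1 : ℕ) : ℤ)] g =
        ((g.val.det : ℂ)⁻¹) • (Y * ((iterD (m + 1) F) ∣[(1 : ℤ) + m + 2] g)) := by
      rw [show (1 : ℤ) + ((m + 1 : ℕ) : ℤ) = ((1 : ℤ) + m + 2) - 1 by push_cast; ring]
      exact slash_pred_weight _ _ hg
    rw [e3]
    ext z
    have hz : denom g z ≠ 0 := denom_ne_zero g z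
    simp only [Pi.smul_apply, Pi.mul_apply, Pi.add_apply, smul_eq_mul, hYdef]
    generalize ((iterD (m + 1) F) ∣[(1 : ℤ) + m + 2] g) z = A
    generalize K z = B
    generalize denom g z = y at hz ⊢
    generalize (g.val.det : ℂ) = d at hdetℂ ⊢
    push_cast
    generalize (2 * (π : ℂ) * Complex.I)⁻¹ = t
    generalize ((g 1 0 : ℝ) : ℂ) = c
    have hy : y * (c / y) = c := by field_simp
    generalize c / y = r at hy ⊢
    rw [pow_succ]
    linear_combination (-(d⁻¹ * d⁻¹ ^ m * (1 + (m : ℂ)) * t * B)) * hy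

end

end Fermat.Agent.S22.ES
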