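import Mathlib
import Fermat.Agent.S22.ES.Bol

set_option autoImplicit false

namespace Fermat.Agent.S22.ES

open UpperHalfPlane hiding I
open Derivative Complex Filter Function
open scoped Manifold MatrixGroups ModularForm Real Topology

noncomputable section

local notation "𝕢" => Periodic.qParam

lemma qParam_add_period {h : ℝ} (hh : h ≠ 0) (z : ℂ) : 𝕢 h (z + h) = 𝕢 h z := by
  have hh' : (h : ℂ) ≠ 0 := by exact_mod_cast hh
  simp only [Periodic.qParam]
  rw [show 2 * (π : ℂ) * I * (z + h) / h = 2 * π * I * z / h + 2 * π * I by field_simp,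
    Complex.exp_add, Complex.exp_two_pi_mul_I, mul_one]

lemma hasDerivAt_qParam (h : ℝ) (z : ℂ) :
    HasDerivAt (𝕢 h) (𝕢 h z * (2 * π * I / h)) z := by
  unfold Periodic.qParam
  have h1 : HasDerivAt (fun w : ℂ => 2 * π * I * w / h) (2 * π * I / h) z := by
    have := ((hasDerivAt_id z).const_mul (2 * π * I)).div_const (h : ℂ)
    simpa using this
  exact h1.cexp

/-- A periodic holomorphic function vanishing at `i∞` has a periodic primitive (for the normalised
derivative `D`) vanishing at `i∞`. -/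
theorem exists_periodic_primitive {h : ℝ} (hh : 0 < h) {g : ℍ → ℂ} (hg : MDiff g)
    (hper : Periodic (g ∘ ofComplex) h) (hzero : IsZeroAtImInfty g) :
    ∃ u : ℍ → ℂ, MDiff u ∧ Periodic (u ∘ ofComplex) h ∧ IsZeroAtImInfty u ∧ D u = g := by
  have hbdd : IsBoundedAtImInfty g := hzero.isBoundedAtImInfty
  set G : ℂ → ℂ := cuspFunction h g with hGdef
  have hG : DifferentiableOn ℂ G (Metric.ball 0 1) :=
    differentiableOn_cuspFunction_ball hh hper hg hbdd
  have hG0 : G 0 = 0 := hzero.cuspFunction_apply_zero hh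
  have hball : Metric.ball (0 : ℂ) 1 ∈ 𝓝 (0 : ℂ) := Metric.ball_mem_nhds 0 one_pos
  have hK : DifferentiableOn ℂ (dslope G 0) (Metric.ball 0 1) :=
    (differentiableOn_dslope hball).mpr hG
  obtain ⟨U, hU0, hU⟩ := (hK.isExactOn_ball).with_val_at 0 (0 : ℂ)
  have hqlt : ∀ z : ℂ, 0 < z.im → 𝕢 h z ∈ Metric.ball (0 : ℂ) 1 := fun z hz => by
    simpa using Periodic.norm_qParam_lt_one hh hz
  -- the function
  refine ⟨fun τ => h * U (𝕢 h τ), ?_, ?_, ?_, ?_⟩
  · -- holomorphic
    rw [UpperHalfPlane.mdifferentiable_iff]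
    intro z hz
    have hz' : 0 < z.im := hz
    have h1 : DifferentiableAt ℂ (fun w : ℂ => (h : ℂ) * U (𝕢 h w)) z :=
      ((hU _ (hqlt z hz')).differentiableAt.comp z
        (Periodic.differentiable_qParam z)).const_mul _
    refine h1.differentiableWithinAt.congr (fun w hw => ?_) ?_
    · simp [Function.comp_apply, ofComplex_apply_of_im_pos hw]
    · simp [Function.comp_apply, ofComplex_apply_of_im_pos hz']
  · -- periodic
    intro w
    by_cases hw : 0 < w.im
    · have hw' : 0 < (w + h).im := by simpa using hw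
      simp only [Function.comp_apply, ofComplex_apply_of_im_pos hw, ofComplex_apply_of_im_pos hw',
        UpperHalfPlane.coe_mk]
      rw [qParam_add_period hh.ne']
    · have hw0 : w.im ≤ 0 := not_lt.mp hw
      have hw' : (w + h).im ≤ 0 := by simpa using hw0
      simp only [Function.comp_apply, ofComplex_apply_of_im_nonpos hw0,
        ofComplex_apply_of_im_nonpos hw']
  · -- zero at infinity
    have hUc : ContinuousAt U 0 := (hU 0 (Metric.mem_ball_self one_pos)).continuousAt
    have h1 : Tendsto (fun τ : ℍ => U (𝕢 h τ)) atImInfty (𝓝 (U 0)) :=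
      hUc.tendsto.comp (qParam_tendsto_atImInfty hh)
    have h2 : Tendsto (fun τ : ℍ => (h : ℂ) * U (𝕢 h τ)) atImInfty (𝓝 ((h : ℂ) * U 0)) :=
      h1.const_mul _
    rw [hU0, mul_zero] at h2
    exact h2
  · -- derivative
    ext z
    have hz' : 0 < (z : ℂ).im := z.im_pos
    have hh' : (h : ℂ) ≠ 0 := by exact_mod_cast hh.ne'
    have hq0 : 𝕢 h (z : ℂ) ≠ 0 := Periodic.qParam_ne_zero _
    have hd : HasDerivAt (fun w : ℂ => (h : ℂ) * U (𝕢 h w))
        ((h : ℂ) * (dslope G 0 (𝕢 h z) * (𝕢 h z * (2 * π * I / h)))) (z : ℂ) :=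
      ((hU _ (hqlt z hz')).comp (z : ℂ) (hasDerivAt_qParam h z)).const_mul _
    have hev : ((fun τ : ℍ => (h : ℂ) * U (𝕢 h τ)) ∘ ofComplex) =ᶠ[𝓝 (z : ℂ)]
        fun w : ℂ => (h : ℂ) * U (𝕢 h w) := by
      filter_upwards [isOpen_upperHalfPlaneSet.mem_nhds z.im_pos] with w hw
      simp [Function.comp_apply, ofComplex_apply_of_im_pos hw]
    simp only [normalizedDerivOfComplex]
    rw [hev.deriv_eq, hd.deriv, dslope_of_ne _ hq0, slope_def_field, hG0, sub_zero, sub_zero,
      hGdef, eq_cuspFunction z hh.ne' hper]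
    have h2pi : (2 * (π : ℂ) * I) ≠ 0 := Complex.two_pi_I_ne_zero
    field_simp

/-- Iterated version. -/
theorem exists_periodic_iterated_primitive {h : ℝ} (hh : 0 < h) (n : ℕ) {g : ℍ → ℂ} (hg : MDiff g)
    (hper : Periodic (g ∘ ofComplex) h) (hzero : IsZeroAtImInfty g) :
    ∃ u : ℍ → ℂ, MDiff u ∧ Periodic (u ∘ ofComplex) h ∧ IsZeroAtImInfty u ∧ iterD n u = g := by
  induction n generalizing g with
  | zero => exact ⟨g, hg, hper, hzero, rfl⟩
  | succ n ih =>
    obtain ⟨v, hv, hvper, hvzero, hDv⟩ := exists_periodic_primitive hh hg hper hzero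
    obtain ⟨u, hu, huper, huzero, hDu⟩ := ih hv hvper hvzero
    exact ⟨u, hu, huper, huzero, by rw [iterD_succ', hDu, hDv]⟩

end

end Fermat.Agent.S22.ES
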