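import Mathlib
import Fermat.Agent.S22.ES.Bol

set_option autoImplicit false

namespace Fermat.Agent.S22.ES

open UpperHalfPlane hiding I
open Derivative Complex Filter Function Polynomial
open scoped Manifold MatrixGroups ModularForm Real Topology

noncomputable section

/-- The polynomial with coefficient vector `v`. -/
def toPoly {n : ℕ} (v : Fin n → ℂ) : ℂ[X] := ∑ j : Fin n, monomial (j : ℕ) (v j)

lemma toPoly_coeff {n : ℕ} (v : Fin n → ℂ) (i : Fin n) : (toPoly v).coeff i = v i := by
  simp only [toPoly, finsetSum_coeff, coeff_monomial]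
  rw [Finset.sum_eq_single i]
  · simp
  · intro j _ hj
    rw [if_neg]
    exact fun h => hj (Fin.ext h)
  · simp

lemma toPoly_eval {n : ℕ} (v : Fin n → ℂ) (z : ℂ) :
    (toPoly v).eval z = ∑ j : Fin n, v j * z ^ (j : ℕ) := by
  simp [toPoly, eval_finsetSum]

/-- Polynomial functions on the upper half plane, as a linear map from coefficient vectors. -/
def polyFunN (n : ℕ) : (Fin n → ℂ) →ₗ[ℂ] (ℍ → ℂ) where
  toFun v := fun z => ∑ j : Fin n, v j * (z : ℂ) ^ (j : ℕ)
  map_add' v w := by
    ext z
    simp [add_mul, Finset.sum_add_distrib]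
  map_smul' c v := by
    ext z
    simp [Finset.mul_sum, mul_assoc]

lemma polyFunN_apply {n : ℕ} (v : Fin n → ℂ) (z : ℍ) :
    polyFunN n v z = ∑ j : Fin n, v j * (z : ℂ) ^ (j : ℕ) := rfl

lemma polyFunN_eq_eval {n : ℕ} (v : Fin n → ℂ) (z : ℍ) :
    polyFunN n v z = (toPoly v).eval (z : ℂ) := by
  rw [toPoly_eval, polyFunN_apply]

lemma infinite_coe_range : Set.Infinite (Set.range fun z : ℍ => (z : ℂ)) := by
  have : Set.range (fun z : ℍ => (z : ℂ)) = {z : ℂ | 0 < z.im} := by
    ext z
    constructor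
    · rintro ⟨w, rfl⟩
      exact w.im_pos
    · intro hz
      exact ⟨⟨z, hz⟩, rfl⟩
  rw [this]
  have hinj : Function.Injective (fun k : ℕ => ((k : ℂ) + Complex.I)) := by
    intro a b hab
    have := congrArg Complex.re hab
    simpa using this
  refine Set.infinite_of_injective_forall_mem hinj (fun k => ?_)
  simp

lemma eq_zero_of_eval_coe_eq_zero {P : ℂ[X]} (h : ∀ z : ℍ, P.eval (z : ℂ) = 0) : P = 0 := by
  apply eq_zero_of_infinite_isRoot
  refine infinite_coe_range.mono ?_
  rintro _ ⟨z, rfl⟩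
  exact h z

lemma polyFunN_injective (n : ℕ) : Function.Injective (polyFunN n) := by
  rw [← LinearMap.ker_eq_bot, LinearMap.ker_eq_bot']
  intro v hv
  have h0 : toPoly v = 0 := eq_zero_of_eval_coe_eq_zero (fun z => by
    rw [← polyFunN_eq_eval, hv]; rfl)
  ext i
  have := toPoly_coeff v i
  rw [h0] at this
  simpa using this.symm

lemma polyFunN_mdiff {n : ℕ} (v : Fin n → ℂ) : MDiff (polyFunN n v) := by
  rw [UpperHalfPlane.mdifferentiable_iff]
  have h1 : DifferentiableOn ℂ (fun w : ℂ => (toPoly v).eval w) upperHalfPlaneSet :=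
    (toPoly v).differentiable.differentiableOn
  refine h1.congr (fun w hw => ?_)
  have hw' : 0 < w.im := hw
  simp [Function.comp_apply, ofComplex_apply_of_im_pos hw', polyFunN_eq_eval]

/-- `D` of a function that agrees with a polynomial. -/
lemma D_eq_of_eq_eval {F : ℍ → ℂ} {P : ℂ[X]} (hF : ∀ z : ℍ, F z = P.eval (z : ℂ)) (z : ℍ) :
    D F z = (2 * π * I)⁻¹ * (derivative P).eval (z : ℂ) := by
  simp only [normalizedDerivOfComplex]
  congr 1
  have hev : (F ∘ ofComplex) =ᶠ[𝓝 (z : ℂ)] fun w : ℂ => P.eval w := by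
    filter_upwards [isOpen_upperHalfPlaneSet.mem_nhds z.im_pos] with w hw
    simp [Function.comp_apply, ofComplex_apply_of_im_pos hw, hF]
  rw [hev.deriv_eq, Polynomial.deriv]

lemma eq_const_of_D_eq_zero {F : ℍ → ℂ} (hF : MDiff F) (h0 : D F = 0) :
    ∃ c : ℂ, ∀ z : ℍ, F z = c := by
  rw [UpperHalfPlane.mdifferentiable_iff] at hF
  have hpre : IsPreconnected upperHalfPlaneSet :=
    (Complex.isConnected_of_upperHalfPlane subset_rfl (by grind)).isPreconnected
  have hderiv : upperHalfPlaneSet.EqOn (deriv (F ∘ ofComplex)) 0 := by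
    intro w hw
    have hw' : 0 < w.im := hw
    have := congrFun h0 ⟨w, hw'⟩
    simp only [normalizedDerivOfComplex, Pi.zero_apply] at this
    rcases mul_eq_zero.mp this with h | h
    · exact absurd (inv_eq_zero.mp h) Complex.two_pi_I_ne_zero
    · simpa using h
  obtain ⟨c, hc⟩ := isOpen_upperHalfPlaneSet.exists_is_const_of_deriv_eq_zero hpre hF hderiv
  refine ⟨c, fun z => ?_⟩
  have := hc (z : ℂ) z.im_pos
  simpa [Function.comp_apply] using this

/-- An antiderivative of a polynomial of degree `< n` with degree `< n + 1`. -/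
lemma exists_antideriv (n : ℕ) (v : Fin n → ℂ) :
    ∃ V : Fin (n + 1) → ℂ, V 0 = 0 ∧ derivative (toPoly V) = C (2 * π * I) * toPoly v := by
  refine ⟨Fin.cons 0 (fun j : Fin n => (2 * π * I) * v j / ((j : ℕ) + 1)), by simp, ?_⟩
  simp only [toPoly, Fin.sum_univ_succ, Fin.cons_zero, Fin.cons_succ, Fin.val_zero,
    monomial_zero_right, zero_add, Fin.val_succ, derivative_sum, derivative_monomial,
    Finset.mul_sum, C_mul_monomial, Nat.add_sub_cancel]
  refine Finset.sum_congr rfl (fun j _ => ?_)
  have hj : ((j : ℕ) : ℂ) + 1 ≠ 0 := Nat.cast_add_one_ne_zero (j : ℕ)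
  have : 2 * ↑π * I * v j / (((j : ℕ) : ℂ) + 1) * (((j : ℕ) + 1 : ℕ) : ℂ) = 2 * ↑π * I * v j := by
    push_cast
    field_simp
  rw [this]

theorem exists_polyFunN_of_iterD_eq_zero (n : ℕ) {w : ℍ → ℂ} (hw : MDiff w)
    (h0 : iterD n w = 0) : ∃ v : Fin n → ℂ, w = polyFunN n v := by
  induction n generalizing w with
  | zero =>
    refine ⟨0, ?_⟩
    rw [iterD_zero] at h0
    rw [h0]
    exact (map_zero (polyFunN 0)).symm
  | succ n ih =>
    rw [iterD_succ] at h0
    obtain ⟨v, hv⟩ := ih (normalizedDerivOfComplex_mdifferentiable hw) h0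
    obtain ⟨V, hV0, hV⟩ := exists_antideriv n v
    have hDP : D (polyFunN (n + 1) V) = polyFunN n v := by
      ext z
      rw [D_eq_of_eq_eval (P := toPoly V) (fun z => polyFunN_eq_eval V z), hV, eval_mul, eval_C,
        polyFunN_eq_eval, ← mul_assoc, inv_mul_cancel₀ Complex.two_pi_I_ne_zero, one_mul]
    have hdiff : D (w - polyFunN (n + 1) V) = 0 := by
      rw [normalizedDerivOfComplex_sub _ _ hw (polyFunN_mdiff V), hDP, hv, sub_self]
    obtain ⟨c, hc⟩ := eq_const_of_D_eq_zero (hw.sub (polyFunN_mdiff V)) hdiff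
    refine ⟨Function.update V 0 c, ?_⟩
    ext z
    have h1 := hc z
    simp only [Pi.sub_apply] at h1
    rw [sub_eq_iff_eq_add] at h1
    rw [h1, polyFunN_apply, polyFunN_apply, Fin.sum_univ_succ, Fin.sum_univ_succ]
    simp only [Function.update_self, Fin.val_zero, pow_zero, mul_one, hV0, zero_add]
    congr 1

/-- A periodic polynomial function is constant. -/
theorem polyFunN_const_of_periodic {n : ℕ} {h : ℝ} (hh : 0 < h) (v : Fin n → ℂ)
    (hper : Periodic ((polyFunN n v) ∘ ofComplex) h) : ∃ c : ℂ, ∀ z : ℍ, polyFunN n v z = c := by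
  set P := toPoly v with hP
  have hval : ∀ k : ℕ, P.eval ((k : ℂ) * h + I) = P.eval I := by
    intro k
    induction k with
    | zero => simp
    | succ k ih =>
      have him : 0 < ((k : ℂ) * h + I).im := by simp
      have him' : 0 < ((k : ℂ) * h + I + h).im := by simp
      have := hper ((k : ℂ) * h + I)
      simp only [Function.comp_apply, ofComplex_apply_of_im_pos him,
        ofComplex_apply_of_im_pos him', polyFunN_eq_eval] at this
      rw [← ih, ← this]
      congr 1
      push_cast
      ring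
  have hinj : Function.Injective (fun k : ℕ => ((k : ℂ) * h + I)) := by
    intro a b hab
    have := congrArg Complex.re hab
    simp only [add_re, mul_re, natCast_re, ofReal_re, natCast_im, ofReal_im, mul_zero, sub_zero,
      Complex.I_re, add_zero] at this
    have h2 : (a : ℝ) = b := mul_right_cancel₀ hh.ne' this
    exact_mod_cast h2
  have hPc : P = C (P.eval I) := by
    apply eq_of_infinite_eval_eq
    refine Set.infinite_of_injective_forall_mem hinj (fun k => ?_)
    simp only [Set.mem_ofPred_eq, eval_C]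
    exact hval k
  refine ⟨P.eval I, fun z => ?_⟩
  rw [polyFunN_eq_eval, ← hP, hPc, eval_C, eval_C]

end

end Fermat.Agent.S22.ES
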