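import Mathlib
import Fermat.Agent.S22.ES.Bol
import Fermat.Agent.S22.ES.EichlerIntegral
import Fermat.Agent.S22.ES.PolyFun

set_option autoImplicit false

namespace Fermat.Agent.S22.ES

open UpperHalfPlane hiding I
open Derivative Complex Filter Function
open scoped Manifold MatrixGroups ModularForm Real Topology

noncomputable section

/-- `u` is an `n`-fold `D`-primitive of `g`, periodic of period `h` and vanishing at `i∞`. -/
structure IsEichlerInt (h : ℝ) (n : ℕ) (g u : ℍ → ℂ) : Prop where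
  mdiff : MDiff u
  periodic : Periodic (u ∘ ofComplex) h
  zero : IsZeroAtImInfty u
  iterD_eq : iterD n u = g

theorem exists_isEichlerInt {h : ℝ} (hh : 0 < h) (n : ℕ) {g : ℍ → ℂ} (hg : MDiff g)
    (hper : Periodic (g ∘ ofComplex) h) (hzero : IsZeroAtImInfty g) :
    ∃ u, IsEichlerInt h n g u := by
  obtain ⟨u, h1, h2, h3, h4⟩ := exists_periodic_iterated_primitive hh n hg hper hzero
  exact ⟨u, h1, h2, h3, h4⟩

lemma eq_zero_of_const_of_isZeroAtImInfty {w : ℍ → ℂ} {c : ℂ} (hc : ∀ z, w z = c)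
    (hz : IsZeroAtImInfty w) : c = 0 := by
  have h1 : Tendsto w atImInfty (𝓝 c) := by
    have : w = fun _ => c := funext hc
    rw [this]
    exact tendsto_const_nhds
  exact tendsto_nhds_unique h1 hz

/-- A periodic holomorphic function with `iterD n w = 0` that vanishes at `i∞` is zero. -/
theorem eq_zero_of_iterD_eq_zero {h : ℝ} (hh : 0 < h) (n : ℕ) {w : ℍ → ℂ} (hw : MDiff w)
    (hper : Periodic (w ∘ ofComplex) h) (hz : IsZeroAtImInfty w) (h0 : iterD n w = 0) : w = 0 := by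
  obtain ⟨v, rfl⟩ := exists_polyFunN_of_iterD_eq_zero n hw h0
  obtain ⟨c, hc⟩ := polyFunN_const_of_periodic hh v hper
  have : c = 0 := eq_zero_of_const_of_isZeroAtImInfty hc hz
  ext z
  rw [hc z, this]
  rfl

/-- A periodic holomorphic function with `iterD n w = 0` is constant. -/
theorem const_of_iterD_eq_zero {h : ℝ} (hh : 0 < h) (n : ℕ) {w : ℍ → ℂ} (hw : MDiff w)
    (hper : Periodic (w ∘ ofComplex) h) (h0 : iterD n w = 0) : ∃ c : ℂ, ∀ z, w z = c := by
  obtain ⟨v, rfl⟩ := exists_polyFunN_of_iterD_eq_zero n hw h0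
  exact polyFunN_const_of_periodic hh v hper

theorem IsEichlerInt.unique {h : ℝ} (hh : 0 < h) {n : ℕ} {g u₁ u₂ : ℍ → ℂ}
    (h₁ : IsEichlerInt h n g u₁) (h₂ : IsEichlerInt h n g u₂) : u₁ = u₂ := by
  have hw : MDiff (u₁ - u₂) := h₁.mdiff.sub h₂.mdiff
  have hper : Periodic ((u₁ - u₂) ∘ ofComplex) h := by
    intro z
    have e1 := h₁.periodic z
    have e2 := h₂.periodic z
    simp only [Function.comp_apply, Pi.sub_apply] at e1 e2 ⊢
    rw [e1, e2]
  have hz : IsZeroAtImInfty (u₁ - u₂) := by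
    have := Filter.Tendsto.sub h₁.zero h₂.zero
    rw [sub_zero] at this
    exact this
  have h0 : iterD n (u₁ - u₂) = 0 := by
    rw [iterD_sub n h₁.mdiff h₂.mdiff, h₁.iterD_eq, h₂.iterD_eq, sub_self]
  exact sub_eq_zero.mp (eq_zero_of_iterD_eq_zero hh n hw hper hz h0)

theorem IsEichlerInt.add {h : ℝ} {n : ℕ} {g₁ g₂ u₁ u₂ : ℍ → ℂ}
    (h₁ : IsEichlerInt h n g₁ u₁) (h₂ : IsEichlerInt h n g₂ u₂) :
    IsEichlerInt h n (g₁ + g₂) (u₁ + u₂) where
  mdiff := h₁.mdiff.add h₂.mdiff
  periodic := by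
    intro z
    have e1 := h₁.periodic z
    have e2 := h₂.periodic z
    simp only [Function.comp_apply, Pi.add_apply] at e1 e2 ⊢
    rw [e1, e2]
  zero := by
    have := Filter.Tendsto.add h₁.zero h₂.zero
    rw [add_zero] at this
    exact this
  iterD_eq := by rw [iterD_add n h₁.mdiff h₂.mdiff, h₁.iterD_eq, h₂.iterD_eq]

theorem IsEichlerInt.smul {h : ℝ} {n : ℕ} {g u : ℍ → ℂ} (c : ℂ)
    (h₁ : IsEichlerInt h n g u) : IsEichlerInt h n (c • g) (c • u) where
  mdiff := mdiff_smul_fun c h₁.mdiff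
  periodic := by
    intro z
    have e1 := h₁.periodic z
    simp only [Function.comp_apply, Pi.smul_apply] at e1 ⊢
    rw [e1]
  zero := by
    have := Filter.Tendsto.const_mul c h₁.zero
    rw [mul_zero] at this
    exact this
  iterD_eq := by rw [iterD_smul n c h₁.mdiff, h₁.iterD_eq]

end

end Fermat.Agent.S22.ES
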