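import Mathlib
import Fermat.Prelude.Thm_Subgroup_IsArithmetic_exists_nat_mem_strictPeriods_conj
import Fermat.Agent.S22.ES.Unique

set_option autoImplicit false

namespace Fermat.Agent.S22.ES

open UpperHalfPlane hiding I
open Derivative Complex Filter Function Matrix.SpecialLinearGroup
open scoped Manifold MatrixGroups ModularForm Real Topology Pointwise

noncomputable section

/-- Bol's identity, in the weight normalisation `-m`, `m + 2`. -/
theorem bol' (m : ℕ) {F : ℍ → ℂ} (hF : MDiff F) {g : GL (Fin 2) ℝ} (hg : 0 < g.val.det) :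
    iterD (m + 1) (F ∣[-(m : ℤ)] g) =
      ((g.val.det : ℂ)⁻¹) ^ (m + 1) • ((iterD (m + 1) F) ∣[(m : ℤ) + 2] g) := by
  have := bol (m + 1) hF hg
  rw [show (1 : ℤ) - ((m + 1 : ℕ) : ℤ) = -(m : ℤ) by push_cast; ring,
    show (1 : ℤ) + ((m + 1 : ℕ) : ℤ) = (m : ℤ) + 2 by push_cast; ring] at this
  exact this

lemma det_mapGL (γ : SL(2, ℤ)) : ((mapGL ℝ γ : GL (Fin 2) ℝ).val.det : ℝ) = 1 := by
  rw [← Matrix.GeneralLinearGroup.val_det_apply]
  simp

theorem bol_SL (m : ℕ) {F : ℍ → ℂ} (hF : MDiff F) (γ : SL(2, ℤ)) :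
    iterD (m + 1) (F ∣[-(m : ℤ)] γ) = (iterD (m + 1) F) ∣[(m : ℤ) + 2] γ := by
  have h := bol' m hF (g := (mapGL ℝ γ : GL (Fin 2) ℝ)) (by rw [det_mapGL]; exact one_pos)
  rw [det_mapGL] at h
  show iterD (m + 1) (F ∣[-(m : ℤ)] (mapGL ℝ γ : GL (Fin 2) ℝ)) =
    (iterD (m + 1) F) ∣[(m : ℤ) + 2] (mapGL ℝ γ : GL (Fin 2) ℝ)
  rw [h]
  simp

variable {Γ : Subgroup (GL (Fin 2) ℝ)} [Γ.IsArithmetic]

/-- Key boundedness: a `Γ`-invariant Eichler integral of a cusp form is bounded at every cusp. -/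
theorem isBoundedAtImInfty_slash_of_invariant (m : ℕ) (f : CuspForm Γ ((m : ℤ) + 2)) {h : ℝ}
    {u : ℍ → ℂ} (hu : IsEichlerInt h (m + 1) f u) (hinv : ∀ γ ∈ Γ, u ∣[-(m : ℤ)] γ = u)
    (δ : SL(2, ℤ)) : IsBoundedAtImInfty (u ∣[-(m : ℤ)] δ) := by
  obtain ⟨M', hM0, hM⟩ := Subgroup.IsArithmetic.exists_nat_mem_strictPeriods_conj Γ
  obtain ⟨M, hMdef⟩ : ∃ M : ℝ, M = (M' : ℝ) := ⟨_, rfl⟩
  have hMpos : (0 : ℝ) < M := by rw [hMdef]; exact_mod_cast hM0
  set gδ : GL (Fin 2) ℝ := mapGL ℝ δ with hgδ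
  have hMδ : (M : ℝ) ∈ (ConjAct.toConjAct gδ⁻¹ • Γ).strictPeriods := by
    have := hM δ⁻¹
    rwa [map_inv, ← hMdef] at this
  -- the translated cusp form
  let ft : CuspForm (ConjAct.toConjAct gδ⁻¹ • Γ) ((m : ℤ) + 2) := CuspForm.translate f gδ
  have hft : (ft : ℍ → ℂ) = (f : ℍ → ℂ) ∣[(m : ℤ) + 2] δ := rfl
  have hft_per : Periodic ((ft : ℍ → ℂ) ∘ ofComplex) M :=
    SlashInvariantFormClass.periodic_comp_ofComplex ft hMδ
  have hft_zero : IsZeroAtImInfty (ft : ℍ → ℂ) := by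
    rw [hft]; exact CuspFormClass.zero_at_infty_slash f δ
  have hft_mdiff : MDiff (ft : ℍ → ℂ) := CuspFormClass.holo ft
  -- the translated Eichler integral
  let uS : SlashInvariantForm Γ (-(m : ℤ)) := ⟨u, hinv⟩
  let vS : SlashInvariantForm (ConjAct.toConjAct gδ⁻¹ • Γ) (-(m : ℤ)) :=
    SlashInvariantForm.translate uS gδ
  have hvS : (vS : ℍ → ℂ) = u ∣[-(m : ℤ)] δ := rfl
  have hv_per : Periodic ((u ∣[-(m : ℤ)] δ) ∘ ofComplex) M := by
    rw [← hvS]; exact SlashInvariantFormClass.periodic_comp_ofComplex vS hMδ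
  have hv_mdiff : MDiff (u ∣[-(m : ℤ)] δ) := hu.mdiff.slash _ _
  have hv_D : iterD (m + 1) (u ∣[-(m : ℤ)] δ) = (ft : ℍ → ℂ) := by
    rw [bol_SL m hu.mdiff δ, hu.iterD_eq, hft]
  -- Eichler integral of the translate
  obtain ⟨w, hw⟩ := exists_isEichlerInt hMpos (m + 1) hft_mdiff hft_per hft_zero
  have hdiff_mdiff : MDiff (u ∣[-(m : ℤ)] δ - w) := hv_mdiff.sub hw.mdiff
  have hdiff_per : Periodic ((u ∣[-(m : ℤ)] δ - w) ∘ ofComplex) M := by
    intro z
    have e1 := hv_per z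
    have e2 := hw.periodic z
    simp only [Function.comp_apply, Pi.sub_apply] at e1 e2 ⊢
    rw [e1, e2]
  have hdiff_D : iterD (m + 1) (u ∣[-(m : ℤ)] δ - w) = 0 := by
    rw [iterD_sub _ hv_mdiff hw.mdiff, hv_D, hw.iterD_eq, sub_self]
  obtain ⟨c, hc⟩ := const_of_iterD_eq_zero hMpos (m + 1) hdiff_mdiff hdiff_per hdiff_D
  have heq : u ∣[-(m : ℤ)] δ = w + fun _ => c := by
    ext z
    have := hc z
    simp only [Pi.sub_apply] at this
    simp only [Pi.add_apply]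
    rw [← this]; ring
  rw [heq]
  exact hw.zero.isBoundedAtImInfty.add (const_boundedAtFilter _ c)

/-- The weight `k'` modular form given by a `Γ`-invariant Eichler integral. -/
def invariantEichlerForm (m : ℕ) (k' : ℤ) (hk' : k' = -(m : ℤ)) (f : CuspForm Γ ((m : ℤ) + 2))
    {h : ℝ} {u : ℍ → ℂ} (hu : IsEichlerInt h (m + 1) f u)
    (hinv : ∀ γ ∈ Γ, u ∣[-(m : ℤ)] γ = u) : ModularForm Γ k' where
  toFun := u
  slash_action_eq' γ hγ := by subst hk'; exact hinv γ hγ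
  holo' := hu.mdiff
  bdd_at_cusps' {c} hc := by
    subst hk'
    rw [Subgroup.IsArithmetic.isCusp_iff_isCusp_SL2Z] at hc
    rw [OnePoint.isBoundedAt_iff_forall_SL2Z hc]
    intro δ _
    exact isBoundedAtImInfty_slash_of_invariant m f hu hinv δ

theorem eq_zero_of_invariant_eichlerInt (m : ℕ) (f : CuspForm Γ ((m : ℤ) + 2)) {h : ℝ}
    {u : ℍ → ℂ} (hu : IsEichlerInt h (m + 1) f u) (hinv : ∀ γ ∈ Γ, u ∣[-(m : ℤ)] γ = u) :
    f = 0 := by
  have hfu : (f : ℍ → ℂ) = iterD (m + 1) u := hu.iterD_eq.symm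
  rcases Nat.eq_zero_or_pos m with rfl | hm
  · -- weight zero: `u` is constant
    let F : ModularForm Γ 0 := invariantEichlerForm 0 0 (by simp) f hu hinv
    obtain ⟨c, hc⟩ := ModularForm.eq_const_of_weight_zero F
    have hu' : u = fun _ => c := hc
    ext z
    rw [hfu, hu']
    simp [iterD_succ', iterD_zero]
  · let F : ModularForm Γ (-(m : ℤ)) := invariantEichlerForm m _ rfl f hu hinv
    have hF : F = 0 := ModularForm.isZero_of_neg_weight (by omega) F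
    have hu' : u = 0 := by
      have := congrArg (fun G : ModularForm Γ (-(m : ℤ)) => (G : ℍ → ℂ)) hF
      exact this
    ext z
    rw [hfu, hu']
    have : iterD (m + 1) (0 : ℍ → ℂ) = 0 := by
      have := iterD_smul (m + 1) (0 : ℂ) (F := (0 : ℍ → ℂ)) mdifferentiable_const
      simpa using this
    rw [this]
    rfl

end

end Fermat.Agent.S22.ES
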