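import Mathlib
import Fermat.Prelude.Thm_CongruenceSubgroup_one_mem_strictPeriods_Gamma0
import Fermat.Agent.S22.ES.Injective

set_option autoImplicit false

namespace Fermat.Agent.S22.ES

open UpperHalfPlane hiding I
open Derivative Complex Filter Function Matrix.SpecialLinearGroup CongruenceSubgroup
open scoped Manifold MatrixGroups ModularForm Real Topology Pointwise

noncomputable section

variable (N : ℕ) [NeZero N] (m : ℕ)

omit [NeZero N] in
lemma cuspForm_periodic_one {k : ℤ} (f : CuspForm (Gamma0 N) k) :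
    Periodic ((f : ℍ → ℂ) ∘ ofComplex) (1 : ℝ) :=
  SlashInvariantFormClass.periodic_comp_ofComplex f (one_mem_strictPeriods_Gamma0 N)

theorem exists_isEichlerInt_cuspForm {k : ℤ} (n : ℕ) (f : CuspForm (Gamma0 N) k) :
    ∃ u, IsEichlerInt 1 n (f : ℍ → ℂ) u :=
  exists_isEichlerInt one_pos n (CuspFormClass.holo f) (cuspForm_periodic_one N f)
    (CuspFormClass.zero_at_infty f)

/-- The Eichler integral of a cusp form (chosen). -/
def eichlerFun {k : ℤ} (n : ℕ) (f : CuspForm (Gamma0 N) k) : ℍ → ℂ :=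
  Classical.choose (exists_isEichlerInt_cuspForm N n f)

lemma eichlerFun_spec {k : ℤ} (n : ℕ) (f : CuspForm (Gamma0 N) k) :
    IsEichlerInt 1 n (f : ℍ → ℂ) (eichlerFun N n f) :=
  Classical.choose_spec (exists_isEichlerInt_cuspForm N n f)

/-- The Eichler integral as a linear map. -/
def eichlerLin (k : ℤ) (n : ℕ) : CuspForm (Gamma0 N) k →ₗ[ℂ] (ℍ → ℂ) where
  toFun f := eichlerFun N n f
  map_add' f g := by
    refine IsEichlerInt.unique one_pos (eichlerFun_spec N n (f + g)) ?_
    have := (eichlerFun_spec N n f).add (eichlerFun_spec N n g)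
    rwa [← FunLike.coe_add] at this
  map_smul' c f := by
    refine IsEichlerInt.unique one_pos (eichlerFun_spec N n (c • f)) ?_
    have := (eichlerFun_spec N n f).smul c
    rwa [← FunLike.coe_smul] at this

lemma eichlerLin_spec {k : ℤ} (n : ℕ) (f : CuspForm (Gamma0 N) k) :
    IsEichlerInt 1 n (f : ℍ → ℂ) (eichlerLin N k n f) :=
  eichlerFun_spec N n f

/-- The period function of a cusp form at `γ ∈ Γ₀(N)` is a polynomial of degree `≤ m`. -/
theorem exists_polyFunN_period (f : CuspForm (Gamma0 N) ((m : ℤ) + 2)) (γ : SL(2, ℤ))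
    (hγ : γ ∈ Gamma0 N) :
    ∃ v : Fin (m + 1) → ℂ,
      (eichlerLin N ((m : ℤ) + 2) (m + 1) f) ∣[-(m : ℤ)] γ - eichlerLin N ((m : ℤ) + 2) (m + 1) f
        = polyFunN (m + 1) v := by
  have hu := eichlerLin_spec N (m + 1) f
  set u := eichlerLin N ((m : ℤ) + 2) (m + 1) f with hudef
  have hs : MDiff (u ∣[-(m : ℤ)] γ) := hu.mdiff.slash _ _
  apply exists_polyFunN_of_iterD_eq_zero (m + 1) (hs.sub hu.mdiff)
  rw [iterD_sub _ hs hu.mdiff, bol_SL m hu.mdiff γ, hu.iterD_eq]
  have : (f : ℍ → ℂ) ∣[(m : ℤ) + 2] γ = f :=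
    SlashInvariantFormClass.slash_action_eq f _ (Subgroup.mem_map_of_mem (mapGL ℝ) hγ)
  rw [this, sub_self]

end

end Fermat.Agent.S22.ES
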