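import Mathlib
import Fermat.Prelude.Def_CuspForm_HeckeAlgebra
import Fermat.Prelude.Thm_ModularForm_periodic_heckeT_comp_ofComplex
import Fermat.Prelude.Thm_ModularForm_periodic_heckeU_comp_ofComplex
import Fermat.Agent.S22.ES.EichlerMap

set_option autoImplicit false

namespace Fermat.Agent.S22.ES

open UpperHalfPlane hiding I
open Derivative Complex Filter Function Matrix.SpecialLinearGroup CongruenceSubgroup ModularForm
open scoped Manifold MatrixGroups ModularForm Real Topology Pointwise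

noncomputable section

lemma heckeMatrix_one_zero (p j : ℕ) : (heckeMatrix p j : GL (Fin 2) ℝ) 1 0 = 0 := by
  rcases eq_or_ne p 0 with rfl | hp
  · simp
  · simp [val_heckeMatrix hp]

lemma heckeDiagMatrix_one_zero (p : ℕ) : (heckeDiagMatrix p : GL (Fin 2) ℝ) 1 0 = 0 := by
  rcases eq_or_ne p 0 with rfl | hp
  · simp
  · simp [val_heckeDiagMatrix hp]

lemma isZeroAtImInfty_slash_heckeMatrix {u : ℍ → ℂ} (hu : IsZeroAtImInfty u) (k : ℤ) {p : ℕ}
    (hp : p ≠ 0) (j : ℕ) : IsZeroAtImInfty (u ∣[k] heckeMatrix p j) := by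
  have h1 : Tendsto (fun τ : ℍ => u (heckeMatrix p j • τ)) atImInfty (𝓝 0) :=
    hu.comp (tendsto_smul_atImInfty (heckeMatrix_one_zero p j))
  have h2 := h1.const_mul ((p : ℂ)⁻¹)
  rw [mul_zero] at h2
  refine h2.congr (fun τ => ?_)
  rw [slash_heckeMatrix_apply k hp]

lemma isZeroAtImInfty_slash_heckeDiagMatrix {u : ℍ → ℂ} (hu : IsZeroAtImInfty u) (k : ℤ) {p : ℕ}
    (hp : p ≠ 0) : IsZeroAtImInfty (u ∣[k] heckeDiagMatrix p) := by
  have h1 : Tendsto (fun τ : ℍ => u (heckeDiagMatrix p • τ)) atImInfty (𝓝 0) :=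
    hu.comp (tendsto_smul_atImInfty (heckeDiagMatrix_one_zero p))
  have h2 := h1.const_mul ((p : ℂ) ^ (k - 1))
  rw [mul_zero] at h2
  refine h2.congr (fun τ => ?_)
  rw [slash_heckeDiagMatrix_apply k hp]

lemma isZeroAtImInfty_heckeU {u : ℍ → ℂ} (hu : IsZeroAtImInfty u) (k : ℤ) {p : ℕ} (hp : p ≠ 0) :
    IsZeroAtImInfty (heckeU k p u) := by
  rw [heckeU_def]
  have : Tendsto (fun τ : ℍ => ∑ j ∈ Finset.range p, (u ∣[k] heckeMatrix p j) τ) atImInfty
      (𝓝 (∑ _j ∈ Finset.range p, (0 : ℂ))) :=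
    tendsto_finsetSum _ (fun j _ => isZeroAtImInfty_slash_heckeMatrix hu k hp j)
  rw [Finset.sum_const_zero] at this
  refine this.congr (fun τ => ?_)
  rw [Finset.sum_apply]

lemma isZeroAtImInfty_heckeT {u : ℍ → ℂ} (hu : IsZeroAtImInfty u) (k : ℤ) {p : ℕ} (hp : p ≠ 0) :
    IsZeroAtImInfty (heckeT k p u) := by
  rw [heckeT_eq_heckeU_add]
  have := Filter.Tendsto.add (isZeroAtImInfty_heckeU hu k hp)
    (isZeroAtImInfty_slash_heckeDiagMatrix hu k hp)
  rw [add_zero] at this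
  exact this

lemma det_heckeMatrix' {p : ℕ} (hp : p ≠ 0) (j : ℕ) :
    ((heckeMatrix p j : GL (Fin 2) ℝ).val.det : ℝ) = p := by
  rw [← Matrix.GeneralLinearGroup.val_det_apply]; exact det_heckeMatrix hp j

lemma det_heckeDiagMatrix' {p : ℕ} (hp : p ≠ 0) :
    ((heckeDiagMatrix p : GL (Fin 2) ℝ).val.det : ℝ) = p := by
  rw [← Matrix.GeneralLinearGroup.val_det_apply]; exact det_heckeDiagMatrix hp

lemma iterD_slash_heckeMatrix (m : ℕ) {u : ℍ → ℂ} (hu : MDiff u) {p : ℕ} (hp : p ≠ 0) (j : ℕ) :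
    iterD (m + 1) (u ∣[-(m : ℤ)] heckeMatrix p j) =
      ((p : ℂ)⁻¹) ^ (m + 1) • ((iterD (m + 1) u) ∣[(m : ℤ) + 2] heckeMatrix p j) := by
  have hpos : 0 < ((heckeMatrix p j : GL (Fin 2) ℝ).val.det : ℝ) := by
    rw [det_heckeMatrix' hp]; exact_mod_cast Nat.pos_of_ne_zero hp
  have := bol' m hu hpos
  rw [det_heckeMatrix' hp] at this
  simpa using this

lemma iterD_slash_heckeDiagMatrix (m : ℕ) {u : ℍ → ℂ} (hu : MDiff u) {p : ℕ} (hp : p ≠ 0) :
    iterD (m + 1) (u ∣[-(m : ℤ)] heckeDiagMatrix p) =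
      ((p : ℂ)⁻¹) ^ (m + 1) • ((iterD (m + 1) u) ∣[(m : ℤ) + 2] heckeDiagMatrix p) := by
  have hpos : 0 < ((heckeDiagMatrix p : GL (Fin 2) ℝ).val.det : ℝ) := by
    rw [det_heckeDiagMatrix' hp]; exact_mod_cast Nat.pos_of_ne_zero hp
  have := bol' m hu hpos
  rw [det_heckeDiagMatrix' hp] at this
  simpa using this

lemma iterD_heckeU (m : ℕ) {u : ℍ → ℂ} (hu : MDiff u) {p : ℕ} (hp : p ≠ 0) :
    iterD (m + 1) (heckeU (-(m : ℤ)) p u) =
      ((p : ℂ)⁻¹) ^ (m + 1) • heckeU ((m : ℤ) + 2) p (iterD (m + 1) u) := by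
  rw [heckeU_def, heckeU_def, iterD_sum _ _ (fun j _ => hu.slash _ _), Finset.smul_sum]
  exact Finset.sum_congr rfl (fun j _ => iterD_slash_heckeMatrix m hu hp j)

lemma iterD_heckeT (m : ℕ) {u : ℍ → ℂ} (hu : MDiff u) {p : ℕ} (hp : p ≠ 0) :
    iterD (m + 1) (heckeT (-(m : ℤ)) p u) =
      ((p : ℂ)⁻¹) ^ (m + 1) • heckeT ((m : ℤ) + 2) p (iterD (m + 1) u) := by
  rw [heckeT_eq_heckeU_add, heckeT_eq_heckeU_add,
    iterD_add _ (mdifferentiable_heckeU hu _ _) (hu.slash _ _), iterD_heckeU m hu hp,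
    iterD_slash_heckeDiagMatrix m hu hp, smul_add]

/-- Hecke-equivariance of the Eichler integral, abstract form. -/
theorem IsEichlerInt.heckeT {m : ℕ} {g u : ℍ → ℂ} (hu : IsEichlerInt 1 (m + 1) g u) {p : ℕ}
    (hp : p ≠ 0) :
    IsEichlerInt 1 (m + 1) (ModularForm.heckeT ((m : ℤ) + 2) p g)
      ((p : ℂ) ^ (m + 1) • ModularForm.heckeT (-(m : ℤ)) p u) where
  mdiff := mdiff_smul_fun _ (mdifferentiable_heckeT hu.mdiff _ _)
  periodic := by
    have h1 : Periodic (u ∘ ofComplex) 1 := by simpa using hu.periodic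
    have h2 := periodic_heckeT_comp_ofComplex h1 (-(m : ℤ)) p
    intro z
    have := h2 z
    simp only [Function.comp_apply, Pi.smul_apply, ofReal_one] at this ⊢
    rw [this]
  zero := by
    have := Filter.Tendsto.const_mul ((p : ℂ) ^ (m + 1)) (isZeroAtImInfty_heckeT hu.zero (-(m : ℤ)) hp)
    rw [mul_zero] at this
    exact this
  iterD_eq := by
    have hp' : (p : ℂ) ≠ 0 := by exact_mod_cast hp
    rw [iterD_smul _ _ (mdifferentiable_heckeT hu.mdiff _ _), iterD_heckeT m hu.mdiff hp,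
      hu.iterD_eq, smul_smul, ← mul_pow, mul_inv_cancel₀ hp', one_pow, one_smul]

theorem IsEichlerInt.heckeU {m : ℕ} {g u : ℍ → ℂ} (hu : IsEichlerInt 1 (m + 1) g u) {p : ℕ}
    (hp : p ≠ 0) :
    IsEichlerInt 1 (m + 1) (ModularForm.heckeU ((m : ℤ) + 2) p g)
      ((p : ℂ) ^ (m + 1) • ModularForm.heckeU (-(m : ℤ)) p u) where
  mdiff := mdiff_smul_fun _ (mdifferentiable_heckeU hu.mdiff _ _)
  periodic := by
    have h1 : Periodic (u ∘ ofComplex) 1 := by simpa using hu.periodic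
    have h2 := periodic_heckeU_comp_ofComplex h1 (-(m : ℤ)) p
    intro z
    have := h2 z
    simp only [Function.comp_apply, Pi.smul_apply, ofReal_one] at this ⊢
    rw [this]
  zero := by
    have := Filter.Tendsto.const_mul ((p : ℂ) ^ (m + 1)) (isZeroAtImInfty_heckeU hu.zero (-(m : ℤ)) hp)
    rw [mul_zero] at this
    exact this
  iterD_eq := by
    have hp' : (p : ℂ) ≠ 0 := by exact_mod_cast hp
    rw [iterD_smul _ _ (mdifferentiable_heckeU hu.mdiff _ _), iterD_heckeU m hu.mdiff hp,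
      hu.iterD_eq, smul_smul, ← mul_pow, mul_inv_cancel₀ hp', one_pow, one_smul]

variable (N : ℕ) [NeZero N] (m : ℕ)

/-- Hecke-equivariance of the Eichler integral for `T_p`. -/
theorem eichlerLin_heckeTLin {p : ℕ} (hp : p.Prime) (hpN : ¬ p ∣ N)
    (f : CuspForm (Gamma0 N) ((m : ℤ) + 2)) :
    eichlerLin N ((m : ℤ) + 2) (m + 1) (CuspForm.heckeTLin ((m : ℤ) + 2) hp hpN f) =
      (p : ℂ) ^ (m + 1) • ModularForm.heckeT (-(m : ℤ)) p (eichlerLin N ((m : ℤ) + 2) (m + 1) f) := by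
  refine IsEichlerInt.unique one_pos (eichlerLin_spec N (m + 1) _) ?_
  rw [CuspForm.coe_heckeTLin_apply]
  exact (eichlerLin_spec N (m + 1) f).heckeT hp.ne_zero

/-- Hecke-equivariance of the Eichler integral for `U_p`. -/
theorem eichlerLin_heckeULin {p : ℕ} (hp : p ≠ 0) (hpN : p ∣ N)
    (f : CuspForm (Gamma0 N) ((m : ℤ) + 2)) :
    eichlerLin N ((m : ℤ) + 2) (m + 1) (CuspForm.heckeULin ((m : ℤ) + 2) hpN f) =
      (p : ℂ) ^ (m + 1) • ModularForm.heckeU (-(m : ℤ)) p (eichlerLin N ((m : ℤ) + 2) (m + 1) f) := by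
  refine IsEichlerInt.unique one_pos (eichlerLin_spec N (m + 1) _) ?_
  rw [CuspForm.coe_heckeULin_apply]
  exact (eichlerLin_spec N (m + 1) f).heckeU hp

end

end Fermat.Agent.S22.ES
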